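import Fermat.Agent.PoitouTate.Lift.Main
import Fermat.Agent.PoitouTate.LocalDual.InvCor

/-!
# The lift of a class, from the field
-/

set_option autoImplicit false

noncomputable section

namespace FLTAgent.PoitouTate

theorem targetLift : TargetLift := targetLift_of_invCor invCor_all

end FLTAgent.PoitouTate
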