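import Fermat.Agent.PoitouTate.Lift.Orbit
import Fermat.Agent.PoitouTate.LocalDual.Places

/-!
# A global class with a prescribed vector at one place over `p`

From the classes over the field with prescribed invariants and the invariance of the invariant
under transfer.
-/

set_option autoImplicit false
set_option linter.style.haveILetI false
set_option linter.unusedSectionVars false

noncomputable section

open scoped Pointwise

namespace FLTAgent.PoitouTate

open FLTAgent FLTAgent.Lowering.P1 FLTAgent.Lowering.P1.Brauer FLTAgent.Lowering.P1.Hasse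
open FLTAgent.Lowering.P1.Loc (SameOrbit)

local notation "LL" => AlgebraicClosure ℚ
local notation "GG" => (AlgebraicClosure ℚ ≃ₐ[ℚ] AlgebraicClosure ℚ)
local notation "VS" => ValuationSubring (AlgebraicClosure ℚ)
local notation "Dec" => ValuationSubring.decompositionSubgroup ℚ

variable {p : ℕ} [Fact p.Prime] {A : Type} [AddCommGroup A] [Module (ZMod p) A]
  {ρ : Representation (ZMod p) GG A} {S : Finset Nat.Primes}

namespace SField

variable (F : SField p S) (V : Nat.Primes → VS)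

/-- The vectors which are the local part of a global class. -/
def liftable (ρ : Representation (ZMod p) GG A) (W : VS) (q₀ : Nat.Primes)
    (t : ↥(F.Hw W) → ↥(F.Hw W) → ZMod p) : Submodule (ZMod p) A where
  carrier := {v | ∃ z ∈ Z2S ρ (MonoidHom.id GG) S,
    res2 (p := p) (Dec W).subtype z - F.phi W ρ t v ∈ B2 ρ (Dec W).subtype ∧
      ∀ q ∈ S, q ≠ q₀ → res2 (p := p) (Dec (V q)).subtype z ∈ B2 ρ (Dec (V q)).subtype}
  zero_mem' := ⟨0, Submodule.zero_mem _, by
    rw [map_zero, zero_sub, show F.phi W ρ t 0 = 0 from funext fun g => funext fun h => by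
      simp [phi], neg_zero]
    exact Submodule.zero_mem _, fun q _ _ => by rw [map_zero]; exact Submodule.zero_mem _⟩
  add_mem' := by
    rintro v v' ⟨z, hz, h1, h2⟩ ⟨z', hz', h1', h2'⟩
    refine ⟨z + z', Submodule.add_mem _ hz hz', ?_, fun q hq hne => by
      rw [map_add]; exact Submodule.add_mem _ (h2 q hq hne) (h2' q hq hne)⟩
    rw [map_add, show F.phi W ρ t (v + v') = F.phi W ρ t v + F.phi W ρ t v' from
      funext fun g => funext fun h => by simp [phi, Finset.sum_add_distrib], add_sub_add_comm]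
    exact Submodule.add_mem _ h1 h1'
  smul_mem' := by
    rintro r v ⟨z, hz, h1, h2⟩
    refine ⟨r • z, Submodule.smul_mem _ r hz, ?_, fun q hq hne => by
      rw [map_smul]; exact Submodule.smul_mem _ r (h2 q hq hne)⟩
    rw [map_smul, show F.phi W ρ t (r • v) = r • F.phi W ρ t v from
      funext fun g => funext fun h => by simp [phi, Finset.smul_sum, smul_comm r], ← smul_sub]
    exact Submodule.smul_mem _ r h1

variable {V}

theorem phi_line {W : VS} (t : ↥(F.Hw W) → ↥(F.Hw W) → ZMod p) {v : A}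
    (hv : ∀ g, ρ g v = om p g • v) : F.phi W ρ t v = fun g h => F.cor2 W t g h • v := by
  funext g h
  simp only [phi, cor2, Finset.sum_smul, hv, om_inv, smul_smul, mul_comm]

theorem mk_out_mem (r : F.GQuo) {g : GG} (h : (g : F.GQuo) = r) : g⁻¹ * r.out ∈ F.N :=
  (QuotientGroup.eq (s := F.N.comap (MonoidHom.id GG))).1 (h.trans (QuotientGroup.out_eq' r).symm)

theorem mem_sup_of_emb {W : VS} {g : GG} (h : (g : F.GQuo) ∈ (F.emb W).range) :
    g ∈ Dec W ⊔ F.N := by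
  obtain ⟨x, hx⟩ := h
  obtain ⟨d, rfl⟩ := QuotientGroup.mk_surjective x
  have h1 : (d : GG)⁻¹ * g ∈ F.N :=
    (QuotientGroup.eq (s := F.N.comap (MonoidHom.id GG))).1 hx
  rw [show g = (d : GG) * ((d : GG)⁻¹ * g) by group]
  exact mul_mem ((le_sup_left : Dec W ≤ Dec W ⊔ F.N) d.2) ((le_sup_right : F.N ≤ Dec W ⊔ F.N) h1)

theorem mk_eq_of_dec {W : VS} {g r : GG} (hg : g⁻¹ * r ∈ Dec W) :
    ((r : F.GQuo) : F.GQuo ⧸ (F.emb W).range) = ((g : F.GQuo) : F.GQuo ⧸ (F.emb W).range) := by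
  refine QuotientGroup.eq.2 ?_
  rw [← QuotientGroup.mk_inv, ← QuotientGroup.mk_mul]
  refine ⟨((⟨r⁻¹ * g, by simpa using inv_mem hg⟩ : ↥(Dec W)) : F.LQuo W), ?_⟩
  rw [F.emb_mk]

/-- The generators of the kernel of the equivariant functionals are liftable. -/
theorem gen_mem_liftable (hfield : TargetField) (hp2 : p ≠ 2) (hpS : ExtCitation.pPrime p ∈ S)
    (hV : ∀ q, (V q).LiesOverPrime (q : ℕ)) (hρ : F.Triv ρ)
    {t : ↥(F.Hw (V (ExtCitation.pPrime p))) → ↥(F.Hw (V (ExtCitation.pPrime p))) → ZMod p}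
    (ht : t ∈ Z2 (omRep p) (F.Hw (V (ExtCitation.pPrime p))).subtype)
    (ht1 : invL p (V (ExtCitation.pPrime p)) (F.Hw (V (ExtCitation.pPrime p))) t = 1)
    {γ : GG} (hγ : γ ∉ Dec (V (ExtCitation.pPrime p)) ⊔ F.N) (η : A) :
    om p γ • ρ γ⁻¹ η - η ∈
      F.liftable V ρ (V (ExtCitation.pPrime p)) (ExtCitation.pPrime p) t := by
  classical
  generalize hq₀ : ExtCitation.pPrime p = q₀ at *
  have hq₀p : (q₀ : ℕ) = p := by rw [← hq₀]; rfl
  set W := V q₀ with hW
  obtain ⟨R, hR, hWR, hγR⟩ := exists_splaces_pair F hpS (hV q₀) hγ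
  have hne : W ≠ γ • W := fun h => not_sameOrbit_smul F hγ ⟨1, one_mem _, by rw [one_smul]; exact h⟩
  obtain ⟨f, hf, hf0, hf1, hfo⟩ := (hfield p hp2 S (hq₀ ▸ hpS) F R hR).exists_class W hWR
    (γ • W) hγR (hq₀p ▸ hV q₀) (hq₀p ▸ Places.liesOverPrime_smul W γ (hV q₀)) hne
  -- the invariants at all the places over `S`
  have hinv : ∀ (q : Nat.Primes), q ∈ S → ∀ U : VS, U.LiesOverPrime (q : ℕ) →
      (¬ SameOrbit F.N W U → ¬ SameOrbit F.N (γ • W) U →
        invL p U (F.Hw U) (res2 (p := p) (F.incl U) f) = 0) := fun q hq U hU h0 h1 => by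
    obtain ⟨w, hw, hwU⟩ := (hR.iff q U q.2 hU).2 ⟨q, hq, rfl⟩
    obtain ⟨lw, hlw, hlw'⟩ := hR.places.lies w hw
    rw [F.invL_sameOrbit hp2 hlw hlw' hf.1 hwU, hfo w hw (fun e => h0 (e ▸ hwU))
      (fun e => h1 (e ▸ hwU))]
  -- the representatives at `W`
  haveI : Fintype (F.GQuo ⧸ (F.emb W).range) := Fintype.ofFinite _
  set o₀ : F.GQuo ⧸ (F.emb W).range := QuotientGroup.mk (1 : F.GQuo) with ho₀
  set o₁ : F.GQuo ⧸ (F.emb W).range := QuotientGroup.mk (γ : F.GQuo) with ho₁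
  have ho : o₁ ≠ o₀ := fun h => hγ (F.mem_sup_of_emb (by
    have h1 := inv_mem (QuotientGroup.eq.1 h)
    simpa using h1))
  let rep : F.GQuo ⧸ (F.emb W).range → F.GQuo :=
    fun o => if o = o₀ then 1 else if o = o₁ then (γ : F.GQuo) else o.out
  have hrep : ∀ o, ((rep o : F.GQuo) : F.GQuo ⧸ (F.emb W).range) = o := fun o => by
    simp only [rep]
    split_ifs with h1 h2
    · exact h1.symm
    · exact h2.symm
    · exact QuotientGroup.out_eq' o
  have hsum : (∑ o, invL p W (F.Hw W) (F.conjF f W (rep o).out) • ρ (rep o).out⁻¹ η) =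
      η - om p γ • ρ γ⁻¹ η := by
    rw [Finset.sum_eq_add_of_mem o₀ o₁ (Finset.mem_univ _) (Finset.mem_univ _) ho.symm
      fun o _ ho' => ?_]
    · have r0 : rep o₀ = 1 := if_pos rfl
      have r1 : rep o₁ = (γ : F.GQuo) := (if_neg ho).trans (if_pos rfl)
      have h0 : (1 : GG)⁻¹ * (1 : F.GQuo).out ∈ F.N := F.mk_out_mem 1 (QuotientGroup.mk_one _)
      have h1 : γ⁻¹ * (γ : F.GQuo).out ∈ F.N := F.mk_out_mem _ rfl
      rw [inv_one, one_mul] at h0
      rw [r0, r1, F.invL_conjF hp2 q₀.2 (hV q₀) hf.1, F.invL_conjF hp2 q₀.2 (hV q₀) hf.1,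
        F.invL_sameOrbit hp2 q₀.2 (hV q₀) hf.1 ⟨_, h0, rfl⟩, hf0,
        F.invL_sameOrbit hp2 q₀.2 (Places.liesOverPrime_smul W γ (hV q₀)) hf.1
          (U := (γ : F.GQuo).out • W) ⟨(γ : F.GQuo).out * γ⁻¹, ?_, by
            rw [smul_smul, inv_mul_cancel_right]⟩, hf1, F.zeta _ h0, F.om_congr h1,
        hρ _ (inv_mem h0), LinearMap.id_apply, mul_one, one_smul, mul_neg_one, neg_smul,
        ← sub_eq_add_neg, F.rho_congr hρ (g := γ⁻¹) (g' := (γ : F.GQuo).out⁻¹) ?_ η]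
      · simpa [mul_assoc] using F.conj_mem γ (inv_mem h1)
      · simpa [mul_assoc] using F.conj_mem γ h1
    · rw [F.invL_conjF hp2 q₀.2 (hV q₀) hf.1, hinv q₀ hpS _
        (Places.liesOverPrime_smul W _ (hV q₀)) ?_ ?_, mul_zero, zero_smul]
      · rintro ⟨σ, hσ, hσW⟩
        refine ho'.1 ((hrep o).symm.trans ?_)
        rw [← QuotientGroup.out_eq' (rep o), ho₀, ← QuotientGroup.mk_one]
        refine (F.mk_eq_of_dec (g := σ) (show (σ⁻¹ * (rep o).out) • W = W by
          rw [mul_smul, ← hσW, inv_smul_smul])).trans (congrArg _ ?_)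
        exact (QuotientGroup.eq_one_iff σ).2 (Subgroup.mem_comap.2 hσ)
      · rintro ⟨σ, hσ, hσW⟩
        refine ho'.2 ((hrep o).symm.trans ?_)
        rw [← QuotientGroup.out_eq' (rep o), ho₁]
        refine (F.mk_eq_of_dec (g := σ * γ) (show ((σ * γ)⁻¹ * (rep o).out) • W = W by
          rw [mul_smul, ← hσW, ← mul_smul σ, inv_smul_smul])).trans (congrArg _ ?_)
        rw [QuotientGroup.mk_mul, (QuotientGroup.eq_one_iff σ).2 (Subgroup.mem_comap.2 hσ), one_mul]
  have hmain := F.res_transfer_sub_mem_B2 W hp2 q₀.2 (hV q₀) hρ hf.1 ht ht1 rep hrep η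
  rw [hsum] at hmain
  rw [show om p γ • ρ γ⁻¹ η - η = -(η - om p γ • ρ γ⁻¹ η) by abel]
  refine Submodule.neg_mem _ ⟨F.transfer f ρ η, F.transfer_mem_Z2S hρ hf η, hmain,
    fun q hq hqne => ?_⟩
  obtain ⟨tq, htq, htq1⟩ := exists_invL_eq_one hp2 q.2 (hV q) (F.localSub_Hw (V q))
    fun g hg => F.zeta g (Subgroup.mem_inf.1 hg).1
  haveI : Fintype (F.GQuo ⧸ (F.emb (V q)).range) := Fintype.ofFinite _
  have h := F.res_transfer_sub_mem_B2 (V q) hp2 q.2 (hV q) hρ hf.1 htq htq1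
    (fun o => o.out) (fun o => QuotientGroup.out_eq' o) η
  have hq0 : ∀ o : F.GQuo ⧸ (F.emb (V q)).range,
      invL p (V q) (F.Hw (V q)) (F.conjF f (V q) o.out.out) = 0 := fun o => by
    have hU := Places.liesOverPrime_smul (V q) o.out.out (hV q)
    rw [F.invL_conjF hp2 q.2 (hV q) hf.1, hinv q hq _ hU ?_ ?_, mul_zero] <;>
      rintro ⟨σ, -, hσ⟩ <;> refine hqne (Subtype.ext (Brauer.prime_unique q.2 q₀.2 hU ?_)) <;> rw [← hσ]
    · exact Places.liesOverPrime_smul _ _ (hV q₀)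
    · exact Places.liesOverPrime_smul _ _ (Places.liesOverPrime_smul _ _ (hV q₀))
  simp only [hq0, zero_smul, Finset.sum_const_zero] at h
  rwa [show F.phi (V q) ρ tq 0 = 0 from funext fun g => funext fun h => by simp [phi],
    sub_zero] at h

end SField

/-- The lifting statement, from the field and the transfer. -/
theorem targetLift_of_invCor
    (hcor : ∀ (p : ℕ) [Fact p.Prime], p ≠ 2 → ∀ (S : Finset Nat.Primes) (F : SField p S) (W : VS)
      (l : ℕ), l.Prime → W.LiesOverPrime l → F.InvCor W) :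
    TargetLift := by
  intro hfield p _ hp2 S hpS V hV F hM A _ _ _ ρ hρ v hv hφ
  set q₀ := ExtCitation.pPrime p with hq₀
  have hW := hV q₀
  obtain ⟨t, ht, ht1⟩ := exists_invL_eq_one hp2 q₀.2 hW (F.localSub_Hw (V q₀))
    fun g hg => F.zeta g (Subgroup.mem_inf.1 hg).1
  obtain ⟨γ₀, hγ₀⟩ : ∃ γ, γ ∉ Dec (V q₀) ⊔ F.N := by
    by_contra hcon
    push Not at hcon
    exact hM ((Subgroup.eq_top_iff' _).2 hcon)
  have hspan : v ∈ Submodule.span (ZMod p)
      {a | ∃ γ, γ ∉ Dec (V q₀) ⊔ F.N ∧ ∃ η, om p γ • ρ γ⁻¹ η - η = a} := by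
    by_contra hcon
    obtain ⟨φ, hφv, hker⟩ := Submodule.exists_le_ker_of_notMem hcon
    have h1 : ∀ g, g ∉ Dec (V q₀) ⊔ F.N → ∀ a, φ (ρ g a) = om p g * φ a := fun g hg a => by
      have h := LinearMap.mem_ker.1
        (hker (Submodule.subset_span ⟨g⁻¹, fun h => hg (inv_mem_iff.1 h), a, rfl⟩))
      rw [map_sub, map_smul, inv_inv, om_inv, sub_eq_zero, smul_eq_mul,
        inv_mul_eq_iff_eq_mul₀ (om_ne_zero g)] at h
      exact h
    refine hφv (hφ φ fun g a => ?_)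
    by_cases hg : g ∈ Dec (V q₀) ⊔ F.N
    · have hgγ : g * γ₀ ∉ Dec (V q₀) ⊔ F.N := fun h => hγ₀ ((Subgroup.mul_mem_cancel_left _ hg).1 h)
      have h2 := h1 (g * γ₀) hgγ (ρ γ₀⁻¹ a)
      rw [← rho_mul ρ, mul_inv_cancel_right, h1 γ₀⁻¹ (fun h => hγ₀ (inv_mem_iff.1 h)) a, om_inv,
        om_mul, ← mul_assoc, mul_assoc (om p g), mul_inv_cancel₀ (om_ne_zero γ₀), mul_one] at h2
      exact h2
    · exact h1 g hg a
  obtain ⟨z, hz, hz1, hz2⟩ := (Submodule.span_le (p := F.liftable V ρ (V q₀) q₀ t)).2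
    (by rintro _ ⟨γ, hγ, η, rfl⟩; exact F.gen_mem_liftable hfield hp2 hpS hV hρ ht ht1 hγ η) hspan
  refine ⟨z, hz, F.cor2 (V q₀) t, F.cor2_mem_Z2 _ ht, ?_, ?_, hz2⟩
  · rw [hcor p hp2 S F (V q₀) q₀ q₀.2 hW t ht, ht1]
  · rw [← F.phi_line t hv]
    exact hz1

end FLTAgent.PoitouTate
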