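import Fermat.Agent.PoitouTate.Lift.Transfer

/-!
# The restriction of a transfer to a decomposition group

The restriction is, up to a coboundary, the transfer from the part in the group of the field of a
class of invariant one with the weighted sum of the translates of the vector over the orbits.
-/

set_option autoImplicit false
set_option linter.style.haveILetI false
set_option linter.unusedSectionVars false

noncomputable section

open scoped Pointwise

namespace FLTAgent.PoitouTate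

open FLTAgent FLTAgent.Lowering.P1 FLTAgent.Lowering.P1.Brauer

local notation "LL" => AlgebraicClosure ℚ
local notation "GG" => (AlgebraicClosure ℚ ≃ₐ[ℚ] AlgebraicClosure ℚ)
local notation "VS" => ValuationSubring (AlgebraicClosure ℚ)
local notation "Dec" => ValuationSubring.decompositionSubgroup ℚ

variable {p : ℕ} [Fact p.Prime] {A : Type} [AddCommGroup A] [Module (ZMod p) A]
  {ρ : Representation (ZMod p) GG A} {S : Finset Nat.Primes}

namespace SField

variable (F : SField p S) (W : VS)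

/-- The map of quotients. -/
def emb : F.LQuo W →* F.GQuo :=
  QuotientGroup.map (F.N.comap (Dec W).subtype) (F.N.comap (MonoidHom.id GG)) (Dec W).subtype
    fun _ h => h

theorem emb_mk (g : ↥(Dec W)) : F.emb W (g : F.LQuo W) = ((g : GG) : F.GQuo) := rfl

theorem emb_injective : Function.Injective (F.emb W) := by
  refine (injective_iff_map_eq_one _).2 fun x hx => ?_
  obtain ⟨g, rfl⟩ := QuotientGroup.mk'_surjective _ x
  exact (QuotientGroup.eq_one_iff g).2
    ((QuotientGroup.eq_one_iff (N := F.N.comap (MonoidHom.id GG)) (g : GG)).1 hx)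

/-- The transfer of a scalar class with a vector to the decomposition group. -/
def phi (ρ : Representation (ZMod p) GG A) (t : ↥(F.Hw W) → ↥(F.Hw W) → ZMod p) (v : A)
    (g h : ↥(Dec W)) : A :=
  ∑ x : F.LQuo W, t (F.uH W x g) (F.uH W (x * (g : F.LQuo W)) h) • ρ (x.out : GG)⁻¹ v

variable {f : ↥F.N → ↥F.N → ZMod p}

/-- The component at an orbit is homotopic to the component at its origin. -/
theorem exists_homotopy (hf : f ∈ Z2 (omRep p) F.N.subtype) (r : F.GQuo)
    {t w : ↥(F.Hw W) → ↥(F.Hw W) → ZMod p} {e : ZMod p}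
    {v : ↥(F.Hw W) → ZMod p} (hvl : LevC (F.Hw W).subtype v)
    (hv : ∀ a b, F.conjF f W r.out a b = e * t a b + w a b)
    (hw : ∀ a b, w a b = v b - v (a * b) + v a) :
    ∃ c : ↥(Dec W) → F.LQuo W → ZMod p, LevC (Dec W).subtype c ∧ ∀ (g h : ↥(Dec W))
      (x : F.LQuo W), F.scal f (g : GG) (h : GG) (r * F.emb W x) =
        c h (x * (g : F.LQuo W)) - c (g * h) x + c g x +
          e * t (F.uH W x g) (F.uH W (x * (g : F.LQuo W)) h) := by
  refine ⟨fun g x => v (F.uH W x g) + F.scal f (x.out : GG) (g : GG) r -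
    F.scal f ((F.uG (Dec W).subtype x g : ↥(Dec W)) : GG)
      ((x * (g : F.LQuo W)).out : ↥(Dec W)) r, ?_, fun g h x => ?_⟩
  · obtain ⟨⟨E, hE, hlev⟩, -⟩ := hf
    obtain ⟨E', hE', hlevv⟩ := hvl
    haveI := F.fd
    obtain ⟨E₁, hE₁, hE₁n, hle₁⟩ := exists_normal_le (E ⊔ F.K)
    obtain ⟨M, hM, hM'⟩ := F.exists_level W (E' ⊔ E₁)
    refine ⟨M ⊔ E₁, inferInstance, fun g s hs => funext fun x => ?_⟩
    obtain ⟨hgs, s', hs', e'⟩ :=
      hM' x g s (IntermediateField.fixingSubgroup_antitone le_sup_left hs)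
    have key : ∀ (a : GG) (n : GG), n ∈ E₁.fixingSubgroup → ∀ y : F.GQuo,
        ((a * n : GG) : F.GQuo) = (a : F.GQuo) ∧
          ∃ n' : ↥F.N, (n' : GG) ∈ E.fixingSubgroup ∧ F.uN y (a * n) = F.uN y a * n' := by
      intro a n hn y
      have hnN : n ∈ F.N := IntermediateField.fixingSubgroup_antitone (le_sup_right.trans hle₁) hn
      refine ⟨F.mk_mul_mem (MonoidHom.id GG) a hnN, F.uN (y * (a : F.GQuo)) n, ?_, F.uN_mul y a n⟩
      show F.uG (MonoidHom.id GG) _ n ∈ E.fixingSubgroup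
      rw [F.uG_mem_apply _ _ hnN]
      refine IntermediateField.fixingSubgroup_antitone (le_sup_left.trans hle₁) ?_
      simpa using fix_conj hn (y * (a : F.GQuo)).out⁻¹
    have er' : ((F.uG (Dec W).subtype x (g * s) : ↥(Dec W)) : GG) =
        ((F.uG (Dec W).subtype x g : ↥(Dec W)) : GG) * s' :=
      congrArg (fun u : ↥(F.Hw W) => (u : GG)) e'
    dsimp only
    rw [hgs, e', hlevv _ _ (IntermediateField.fixingSubgroup_antitone le_sup_left hs'), er']
    refine congrArg₂ (· - ·) (congrArg _ ?_) ?_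
    · obtain ⟨-, n', hn', en⟩ := key (g : GG) (s : GG)
        (IntermediateField.fixingSubgroup_antitone le_sup_right hs) (r * ((x.out : GG) : F.GQuo))
      simp only [scal]
      rw [Subgroup.coe_mul, en]
      have h6 := hlev (F.uN r (x.out : GG)) (F.uN (r * ((x.out : GG) : F.GQuo)) g) 1 n'
        (one_mem _) hn'
      rwa [mul_one] at h6
    · obtain ⟨h0, n', hn', en⟩ := key ((F.uG (Dec W).subtype x g : ↥(Dec W)) : GG) (s' : GG)
        (IntermediateField.fixingSubgroup_antitone le_sup_right hs') r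
      simp only [scal]
      rw [h0, en]
      have h6 := hlev (F.uN r ((F.uG (Dec W).subtype x g : ↥(Dec W)) : GG)) (F.uN (r *
        (((F.uG (Dec W).subtype x g : ↥(Dec W)) : GG) : F.GQuo))
          (((x * (g : F.LQuo W)).out : ↥(Dec W)) : GG)) n' 1 hn' (one_mem _)
      rwa [mul_one] at h6
  · set u : GG := ((F.uG (Dec W).subtype x g : ↥(Dec W)) : GG) with hu
    set u' : GG := ((F.uG (Dec W).subtype (x * (g : F.LQuo W)) h : ↥(Dec W)) : GG) with hu'
    set ŷ : GG := (((x * (g : F.LQuo W)).out : ↥(Dec W)) : GG) with hy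
    set ŵ : GG := (((x * (g : F.LQuo W) * (h : F.LQuo W)).out : ↥(Dec W)) : GG) with hw'
    have hnN : u ∈ F.N := F.uG_mem (Dec W).subtype x g
    have hnN' : u' ∈ F.N := F.uG_mem (Dec W).subtype _ h
    have e1 : u * ŷ = (x.out : GG) * g := congrArg Subtype.val (F.uG_mul_out (Dec W).subtype x g)
    have e2 : u' * ŵ = ŷ * h := congrArg Subtype.val (F.uG_mul_out (Dec W).subtype _ h)
    have hux : (u : F.GQuo) = 1 := (QuotientGroup.eq_one_iff _).2 (Subgroup.mem_comap.2 hnN)
    have i1 := F.scal_cocycle hf (x.out : GG) (g : GG) (h : GG) r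
    have i2 := F.scal_cocycle hf u ŷ (h : GG) r
    have i3 := F.scal_cocycle hf u u' ŵ r
    rw [show (((x.out : ↥(Dec W)) : GG) : F.GQuo) = F.emb W x by
      rw [← F.emb_mk, QuotientGroup.out_eq']] at i1
    rw [hux, mul_one, e1, ← e2] at i2
    rw [hux, mul_one] at i3
    have hc0 : F.scal f u u' r = e * t (F.uH W x g) (F.uH W (x * (g : F.LQuo W)) h) +
        (v (F.uH W (x * (g : F.LQuo W)) h) - v (F.uH W x g * F.uH W (x * (g : F.LQuo W)) h) +
          v (F.uH W x g)) := by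
      rw [← hw, ← hv, scal, hux, mul_one]
      simp only [conjF]
      congr 1 <;> refine Subtype.ext ?_
      · show F.uG (MonoidHom.id GG) r u = _
        rw [F.uG_mem_apply _ _ hnN]; rfl
      · show F.uG (MonoidHom.id GG) r u' = _
        rw [F.uG_mem_apply _ _ hnN']; rfl
    dsimp only
    rw [QuotientGroup.mk_mul, ← mul_assoc x, F.uH_mul, F.uG_mul, ← hy, ← hw', Subgroup.coe_mul,
      Subgroup.coe_mul, ← hu, ← hu']
    linear_combination i1 - i2 + i3 + hc0

variable {l : ℕ} (hp2 : p ≠ 2) (hl : l.Prime) (hW : W.LiesOverPrime l)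

/-- The representatives of the orbits. -/
theorem sum_orbits {M : Type} [AddCommMonoid M]
    (rep : F.GQuo ⧸ (F.emb W).range → F.GQuo)
    (hrep : ∀ o, ((rep o : F.GQuo) : F.GQuo ⧸ (F.emb W).range) = o)
    [Fintype (F.GQuo ⧸ (F.emb W).range)] (G : F.GQuo → M) :
    ∑ x : F.GQuo, G x = ∑ o : F.GQuo ⧸ (F.emb W).range, ∑ x : F.LQuo W, G (rep o * F.emb W x) := by
  rw [← Fintype.sum_prod_type']
  refine (Fintype.sum_bijective (fun q : (F.GQuo ⧸ (F.emb W).range) × F.LQuo W =>
    rep q.1 * F.emb W q.2) ⟨fun q q' h => ?_, fun y => ?_⟩ _ _ fun q => rfl).symm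
  · have h1 : ∀ o x, ((rep o * F.emb W x : F.GQuo) : F.GQuo ⧸ (F.emb W).range) = o := fun o x =>
      (QuotientGroup.eq.2 (by
        rw [mul_inv_rev, inv_mul_cancel_right]
        exact inv_mem ⟨x, rfl⟩)).trans (hrep o)
    have h2 : q.1 = q'.1 := by rw [← h1 q.1 q.2, ← h1 q'.1 q'.2]; exact congrArg _ h
    refine Prod.ext h2 (F.emb_injective W (mul_left_cancel (a := rep q.1) ?_))
    simpa [h2] using h
  · obtain ⟨x, hx⟩ := QuotientGroup.eq.1 (hrep (y : F.GQuo ⧸ (F.emb W).range))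
    exact ⟨((y : F.GQuo ⧸ (F.emb W).range), x), by
      show rep (y : F.GQuo ⧸ (F.emb W).range) * F.emb W x = y
      rw [hx, mul_inv_cancel_left]⟩

include hp2 hl hW in
/-- The restriction of a transfer, orbit by orbit. -/
theorem res_transfer_sub_mem_B2 (hρ : F.Triv ρ) (hf : f ∈ Z2 (omRep p) F.N.subtype)
    {t : ↥(F.Hw W) → ↥(F.Hw W) → ZMod p} (ht : t ∈ Z2 (omRep p) (F.Hw W).subtype)
    (ht1 : invL p W (F.Hw W) t = 1)
    (rep : F.GQuo ⧸ (F.emb W).range → F.GQuo)
    (hrep : ∀ o, ((rep o : F.GQuo) : F.GQuo ⧸ (F.emb W).range) = o)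
    [Fintype (F.GQuo ⧸ (F.emb W).range)] (η : A) :
    res2 (p := p) (Dec W).subtype (F.transfer f ρ η) - F.phi W ρ t
        (∑ o, invL p W (F.Hw W) (F.conjF f W (rep o).out) • ρ (rep o).out⁻¹ η) ∈
      B2 ρ (Dec W).subtype := by
  set e := fun o => invL p W (F.Hw W) (F.conjF f W (rep o).out) with he
  have hcb : ∀ o, ∃ v ∈ C1 (F.Hw W).subtype (p := p),
      F.conjF f W (rep o).out = e o • t + d1 (omRep p) (F.Hw W).subtype v := fun o => by
    have hc := F.conjF_mem_Z2 hf W (rep o).out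
    obtain ⟨v, hv, hve⟩ := mem_B2_of_invL_eq_zero hl hW hp2 (F.localSub_Hw W)
      (Submodule.add_mem _ hc (Submodule.smul_mem _ (-e o) ht))
      (by rw [invL_add hp2 hl hW (F.localSub_Hw W) hc (Submodule.smul_mem _ _ ht),
        invL_smul hp2 hl hW (F.localSub_Hw W) _ ht, ht1, mul_one, he, add_neg_cancel])
    exact ⟨v, hv, by rw [hve, add_left_comm, ← add_smul, add_neg_cancel, zero_smul, add_zero]⟩
  choose v hvl hve using hcb
  have hhom : ∀ o, ∃ c : ↥(Dec W) → F.LQuo W → ZMod p, LevC (Dec W).subtype c ∧ ∀ (g h : ↥(Dec W))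
      (x : F.LQuo W), F.scal f (g : GG) (h : GG) (rep o * F.emb W x) =
        c h (x * (g : F.LQuo W)) - c (g * h) x + c g x +
          e o * t (F.uH W x g) (F.uH W (x * (g : F.LQuo W)) h) := fun o =>
    F.exists_homotopy W hf (rep o) (w := d1 (omRep p) (F.Hw W).subtype (v o)) (hvl o)
      (fun a b => by rw [hve o]; rfl) fun a b => by
        rw [d1_apply, omRep_apply, Subgroup.coe_subtype, F.zeta _ (Subgroup.mem_inf.1 a.2).1, one_mul]
  choose c hcl hc using hhom
  have hvec : ∀ o (x : F.LQuo W), ρ (rep o * F.emb W x).out⁻¹ η =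
      ρ (x.out : GG)⁻¹ (ρ (rep o).out⁻¹ η) := fun o x => by
    have h := F.rho_inv_out_mul (MonoidHom.id GG) hρ (rep o) (x.out : GG) η
    rw [show (((x.out : ↥(Dec W)) : GG) : F.GQuo) = F.emb W x by
      rw [← F.emb_mk, QuotientGroup.out_eq']] at h
    simp only [MonoidHom.id_apply] at h
    rw [← h, ← rho_mul ρ, inv_mul_cancel, rho_one]
  refine ⟨∑ o, fun g => ∑ x : F.LQuo W, c o g x • ρ (x.out : GG)⁻¹ (ρ (rep o).out⁻¹ η),
    Submodule.sum_mem _ fun o _ => ?_, ?_⟩
  · obtain ⟨E, hE, hl'⟩ := hcl o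
    exact ⟨E, hE, fun g s hs => by simp only [hl' g s hs]⟩
  funext g h
  have e1 : ρ (g : GG) (∑ o, ∑ x : F.LQuo W, c o h x • ρ (x.out : GG)⁻¹ (ρ (rep o).out⁻¹ η)) =
      ∑ o, ∑ x : F.LQuo W,
        c o h (x * (g : F.LQuo W)) • ρ (x.out : GG)⁻¹ (ρ (rep o).out⁻¹ η) := by
    rw [map_sum]
    refine Finset.sum_congr rfl fun o _ => ?_
    rw [map_sum]
    refine (Fintype.sum_equiv (Equiv.mulRight (g : F.LQuo W)) _ _ fun x => ?_).symm
    rw [Equiv.coe_mulRight, map_smul]
    exact congrArg _ (F.rho_inv_out_mul (Dec W).subtype hρ x g _).symm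
  have e2 : F.phi W ρ t
      (∑ o, invL p W (F.Hw W) (F.conjF f W (rep o).out) • ρ (rep o).out⁻¹ η) g h = ∑ o, ∑ x : F.LQuo W,
      (e o * t (F.uH W x g) (F.uH W (x * (g : F.LQuo W)) h)) •
        ρ (x.out : GG)⁻¹ (ρ (rep o).out⁻¹ η) := by
    simp only [he, phi, map_sum, map_smul, Finset.smul_sum, smul_smul]
    rw [Finset.sum_comm]
    simp only [mul_comm (invL p W (F.Hw W) _)]
  have e3 : F.transfer f ρ η (g : GG) (h : GG) = ∑ o, ∑ x : F.LQuo W,
      F.scal f (g : GG) (h : GG) (rep o * F.emb W x) •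
        ρ (x.out : GG)⁻¹ (ρ (rep o).out⁻¹ η) := by
    rw [transfer, F.sum_orbits W rep hrep]
    simp only [hvec]
  simp only [Pi.sub_apply, res2_apply, Subgroup.coe_subtype, d1_apply, Finset.sum_apply, e1, e2, e3,
    ← Finset.sum_sub_distrib, ← Finset.sum_add_distrib, ← sub_smul, ← add_smul]
  refine Finset.sum_congr rfl fun o _ => Finset.sum_congr rfl fun x _ => congrArg (· • _) ?_
  rw [hc o g h x]
  ring

end SField

end FLTAgent.PoitouTate
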