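import Fermat.Agent.PoitouTate.LocalDual.Transversal
import Fermat.Agent.PoitouTate.Values
import Fermat.Agent.Places.Basic

/-!
# The transfer of a class over the field with a vector

Two cocycles of the group of the field give global two cocycles with values in a module trivial
over the field, and their restrictions to a decomposition group are described place by place.
-/

set_option autoImplicit false
set_option linter.style.haveILetI false
set_option linter.unusedSectionVars false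

noncomputable section

open scoped Pointwise

namespace FLTAgent.PoitouTate

open FLTAgent FLTAgent.Lowering.P1 FLTAgent.Lowering.P1.Brauer
open FLTAgent.Lowering.P1.Loc (SameOrbit)

local notation "LL" => AlgebraicClosure ℚ
local notation "GG" => (AlgebraicClosure ℚ ≃ₐ[ℚ] AlgebraicClosure ℚ)
local notation "VS" => ValuationSubring (AlgebraicClosure ℚ)
local notation "Dec" => ValuationSubring.decompositionSubgroup ℚ

variable {p : ℕ} [Fact p.Prime] {A : Type} [AddCommGroup A] [Module (ZMod p) A]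
  {ρ : Representation (ZMod p) GG A} {S : Finset Nat.Primes}

/-- A field unramified outside `S` lies in one with normal fixing subgroup. -/
theorem exists_core_unramified {E : IntermediateField ℚ LL} (hE : E.IsUnramifiedOutside S) :
    ∃ L : IntermediateField ℚ LL, L.IsUnramifiedOutside S ∧
      ∀ σ ∈ L.fixingSubgroup, ∀ g : GG, g * σ * g⁻¹ ∈ E.fixingSubgroup := by
  haveI := hE.1
  obtain ⟨M, hM, hMn, hle⟩ := exists_normal_le E
  have hopen : OpenIn E.fixingSubgroup.normalCore ⊤ := ⟨M, hM, fun σ hσ g => by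
    refine IntermediateField.fixingSubgroup_antitone hle ?_
    simpa using fix_conj (Subgroup.mem_inf.1 hσ).2 g⁻¹⟩
  obtain ⟨L, hL, hLA⟩ := exists_field_of_open hopen
  refine ⟨L, ⟨hL, fun q hq W hW σ hσ => ?_⟩, fun σ hσ g => ?_⟩
  · show σ ∈ galOf L
    rw [hLA]
    exact fun g => hE.2 q hq (g • W) (Places.liesOverPrime_smul W g hW)
      (Places.conj_mem_inertia W hσ g)
  · exact (hLA ▸ hσ : σ ∈ E.fixingSubgroup.normalCore) g

namespace SField

variable (F : SField p S)

/-- The quotient by the group of the field. -/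
abbrev GQuo : Type := F.Quo (MonoidHom.id GG)

/-- The component in the group of the field. -/
def uN (x : F.GQuo) (g : GG) : ↥F.N := ⟨F.uG (MonoidHom.id GG) x g, F.uG_mem (MonoidHom.id GG) x g⟩

theorem uN_mul (x : F.GQuo) (g h : GG) :
    F.uN x (g * h) = F.uN x g * F.uN (x * (g : F.GQuo)) h :=
  Subtype.ext (F.uG_mul (MonoidHom.id GG) x g h)

theorem conj_mem (r : GG) {g : GG} (hg : g ∈ F.N) : r * g * r⁻¹ ∈ F.N :=
  SField.instNormal F |>.conj_mem g hg r

variable (f : ↥F.N → ↥F.N → ZMod p)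

/-- The coinduced scalar cochain. -/
def scal (g h : GG) (x : F.GQuo) : ZMod p := f (F.uN x g) (F.uN (x * (g : F.GQuo)) h)

/-- The global transfer with a vector. -/
def transfer (ρ : Representation (ZMod p) GG A) (η : A) (g h : GG) : A :=
  ∑ x : F.GQuo, F.scal f g h x • ρ x.out⁻¹ η

/-- The conjugate of a cochain at a place. -/
def conjF (W : VS) (r : GG) (u v : ↥(F.Hw W)) : ZMod p :=
  f ⟨r * u * r⁻¹, F.conj_mem r (Subgroup.mem_inf.1 u.2).1⟩
    ⟨r * v * r⁻¹, F.conj_mem r (Subgroup.mem_inf.1 v.2).1⟩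

variable {f}

theorem scal_cocycle (hf : f ∈ Z2 (omRep p) F.N.subtype) (g h j : GG) (x : F.GQuo) :
    F.scal f h j (x * (g : F.GQuo)) - F.scal f (g * h) j x + F.scal f g (h * j) x -
      F.scal f g h x = 0 := by
  have h1 := hf.2 (F.uN x g) (F.uN (x * (g : F.GQuo)) h)
    (F.uN (x * (g : F.GQuo) * (h : F.GQuo)) j)
  rw [omRep_apply, Subgroup.coe_subtype, F.zeta _ (F.uN x g).2, one_mul, ← F.uN_mul,
    ← F.uN_mul] at h1
  simp only [scal, QuotientGroup.mk_mul, ← mul_assoc x]
  exact h1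

theorem transfer_mem_Z2S (hρ : F.Triv ρ) (hf : f ∈ Z2S (omRep p) F.N.subtype S) (η : A) :
    F.transfer f ρ η ∈ Z2S ρ (MonoidHom.id GG) S := by
  haveI := F.fd
  obtain ⟨hf2, E, hE, hlev⟩ := hf
  obtain ⟨L, hL, hLE⟩ := exists_core_unramified hE
  have hlv : ∀ g h s t : GG, s ∈ (L ⊔ F.K).fixingSubgroup → t ∈ (L ⊔ F.K).fixingSubgroup →
      F.transfer f ρ η (g * s) (h * t) = F.transfer f ρ η g h := fun g h s t hs ht => by
    have hsN : s ∈ F.N := IntermediateField.fixingSubgroup_antitone le_sup_right hs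
    have htN : t ∈ F.N := IntermediateField.fixingSubgroup_antitone le_sup_right ht
    refine Finset.sum_congr rfl fun x _ => congrArg (· • _) ?_
    simp only [scal, F.mk_mul_mem (MonoidHom.id GG) g hsN, F.uN_mul]
    refine hlev _ _ _ _ ?_ ?_
    · show F.uG (MonoidHom.id GG) _ s ∈ E.fixingSubgroup
      rw [F.uG_mem_apply _ _ hsN]
      exact hLE s (IntermediateField.fixingSubgroup_antitone le_sup_left hs) _
    · show F.uG (MonoidHom.id GG) _ t ∈ E.fixingSubgroup
      rw [F.uG_mem_apply _ _ htN]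
      exact hLE t (IntermediateField.fixingSubgroup_antitone le_sup_left ht) _
  have hLK : (L ⊔ F.K).IsUnramifiedOutside S := hL.sup F.unram
  refine ⟨⟨⟨L ⊔ F.K, hLK.1, hlv⟩, fun g h j => ?_⟩, L ⊔ F.K, hLK, hlv⟩
  have e : ρ g (F.transfer f ρ η h j) =
      ∑ x : F.GQuo, F.scal f h j (x * (g : F.GQuo)) • ρ x.out⁻¹ η := by
    rw [transfer, map_sum]
    refine (Fintype.sum_equiv (Equiv.mulRight (g : F.GQuo)) _ _ fun x => ?_).symm
    rw [Equiv.coe_mulRight, map_smul]
    exact congrArg _ (F.rho_inv_out_mul (MonoidHom.id GG) hρ x g η).symm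
  rw [MonoidHom.id_apply, e]
  simp only [transfer, ← Finset.sum_sub_distrib, ← Finset.sum_add_distrib, ← sub_smul, ← add_smul,
    F.scal_cocycle hf2, zero_smul, Finset.sum_const_zero]

theorem conjF_mem_Z2 (hf : f ∈ Z2 (omRep p) F.N.subtype) (W : VS) (r : GG) :
    F.conjF f W r ∈ Z2 (omRep p) (F.Hw W).subtype := by
  obtain ⟨⟨E, hE, hlev⟩, hcoc⟩ := hf
  obtain ⟨M, hM, hMn, hle⟩ := exists_normal_le E
  let φ : ↥(F.Hw W) →* ↥F.N :=
    { toFun := fun u => ⟨r * u * r⁻¹, F.conj_mem r (Subgroup.mem_inf.1 u.2).1⟩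
      map_one' := Subtype.ext (by simp)
      map_mul' := fun u v => Subtype.ext (by simp [mul_assoc]) }
  refine ⟨⟨M, hM, fun g h a b ha hb => ?_⟩, fun g h j => ?_⟩
  · show f (φ (g * a)) (φ (h * b)) = f (φ g) (φ h)
    rw [map_mul, map_mul]
    refine hlev _ _ _ _ ?_ ?_ <;> refine IntermediateField.fixingSubgroup_antitone hle ?_
    · simpa [φ] using fix_conj ha r⁻¹
    · simpa [φ] using fix_conj hb r⁻¹
  · have h1 := hcoc (φ g) (φ h) (φ j)
    simp only [omRep_apply, Subgroup.coe_subtype, F.zeta _ (φ g).2, ← map_mul] at h1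
    simp only [omRep_apply, Subgroup.coe_subtype, F.zeta _ (Subgroup.mem_inf.1 g.2).1]
    exact h1

theorem res_Hw_mem_Z2 (hf : f ∈ Z2 (omRep p) F.N.subtype) (W : VS) :
    res2 (p := p) (F.incl W) f ∈ Z2 (omRep p) (F.Hw W).subtype :=
  res2_mem_Z2 (F.incl W) hf

variable {l : ℕ} {W : VS} (hp2 : p ≠ 2) (hl : l.Prime) (hW : W.LiesOverPrime l)

include hp2 hl hW in
/-- The invariant of a conjugate. -/
theorem invL_conjF (hf : f ∈ Z2 (omRep p) F.N.subtype) (r : GG) :
    invL p W (F.Hw W) (F.conjF f W r) =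
      om p r * invL p (r • W) (F.Hw (r • W)) (res2 (p := p) (F.incl (r • W)) f) := by
  have hH' : ∀ g : GG, g ∈ F.Hw (r • W) ↔ r⁻¹ * g * r ∈ F.Hw W := fun g => by
    rw [Subgroup.mem_inf, Subgroup.mem_inf]
    exact and_congr ⟨fun h => by simpa using F.conj_mem r⁻¹ h,
      fun h => by simpa [mul_assoc] using F.conj_mem r h⟩ mem_dec_smul
  have h := invL_conj hp2 hl hW r (F.localSub_Hw W) hH' (F.conjF_mem_Z2 hf W r)
  rw [← h, show (fun g h : ↥(F.Hw (r • W)) => om p r * F.conjF f W r ⟨r⁻¹ * g * r, (hH' g).1 g.2⟩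
    ⟨r⁻¹ * h * r, (hH' h).1 h.2⟩) = om p r • res2 (p := p) (F.incl (r • W)) f from
      funext fun g => funext fun h => by
        simp only [conjF, Pi.smul_apply, smul_eq_mul, res2_apply]
        congr 2 <;> exact Subtype.ext (by simp [mul_assoc]),
    invL_smul hp2 hl (Places.liesOverPrime_smul W r hW) (F.localSub_Hw _) _
      (F.res_Hw_mem_Z2 hf _)]

include hp2 hl hW in
/-- Places conjugate over the field have the same invariant. -/
theorem invL_sameOrbit (hf : f ∈ Z2 (omRep p) F.N.subtype) {U : VS} (h : SameOrbit F.N W U) :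
    invL p U (F.Hw U) (res2 (p := p) (F.incl U) f) =
      invL p W (F.Hw W) (res2 (p := p) (F.incl W) f) := by
  obtain ⟨σ, hσ, rfl⟩ := h
  have h1 := F.invL_conjF hp2 hl hW hf σ
  rw [F.zeta σ hσ, one_mul] at h1
  rw [← h1]
  refine invL_congr hp2 hl hW (F.localSub_Hw W) (F.res_Hw_mem_Z2 hf W) ?_
  set s : ↥F.N := ⟨σ⁻¹, inv_mem hσ⟩ with hs
  let ι : ↥(F.Hw W) → ↥F.N := F.incl W
  refine ⟨fun g => f s (s⁻¹ * ι g * s) - f (ι g) s, ?_, ?_⟩
  · obtain ⟨⟨E, hE, hlev⟩, -⟩ := hf
    obtain ⟨M, hM, hMn, hle⟩ := exists_normal_le E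
    refine ⟨M, hM, fun g t ht => ?_⟩
    have ht' : ((ι t : ↥F.N) : GG) ∈ E.fixingSubgroup :=
      IntermediateField.fixingSubgroup_antitone hle ht
    have e : s⁻¹ * ι (g * t) * s = s⁻¹ * ι g * s * (s⁻¹ * ι t * s) := by
      simp only [ι, map_mul]; group
    have h2 : ((s⁻¹ * ι t * s : ↥F.N) : GG) ∈ E.fixingSubgroup := by
      refine IntermediateField.fixingSubgroup_antitone hle ?_
      simpa [ι, hs] using fix_conj ht σ⁻¹
    dsimp only
    rw [e]
    refine congrArg₂ (· - ·) ?_ ?_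
    · simpa using hlev s (s⁻¹ * ι g * s) 1 (s⁻¹ * ι t * s) (one_mem _) h2
    · simpa [ι] using hlev (ι g) s (ι t) 1 ht' (one_mem _)
  · funext g h
    have hom : ∀ n : ↥F.N, om p (n : GG) = 1 := fun n => F.zeta _ n.2
    set g' := s⁻¹ * ι g * s
    set h' := s⁻¹ * ι h * s
    have hc : F.conjF f W σ g h = f g' h' := by
      simp only [conjF, g', h', ι]
      congr 1
    have e1 : s * g' = ι g * s := by simp only [g']; group
    have e2 : s * h' = ι h * s := by simp only [h']; group
    have e3 : s⁻¹ * ι (g * h) * s = g' * h' := by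
      simp only [g', h', ι, map_mul]; group
    have i1 := hf.2 s g' h'
    have i2 := hf.2 (ι g) s h'
    have i3 := hf.2 (ι g) (ι h) s
    simp only [omRep_apply, Subgroup.coe_subtype, hom, one_mul, e1, e2] at i1 i2 i3
    simp only [d1_apply, omRep_apply, Subgroup.coe_subtype, Pi.sub_apply, hc, res2_apply,
      F.zeta _ (Subgroup.mem_inf.1 g.2).1, one_mul, e3]
    rw [show ι (g * h) = ι g * ι h from map_mul (F.incl W) g h]
    linear_combination -i1 + i2 - i3

end SField

end FLTAgent.PoitouTate
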